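/-
Programme MAZ (S15), row 727 E3-ASM (helper58), layer 2: **(D2') assembled** = (NP) + (AP) + (GF).

A place `w` of `FF p = ℚbar(j, j_p)` with RATIONAL values `j(w) = a`, `j_p(w) = b`, `v₂(a) < 0`, is fixed by
`Gal(ℚbar/ℚ)`, given
* (AP-abs) `SmoothPt61.APAbs Kbar (FF p)` (helper75: a smooth point of the plane model carries at most one
  place), and
* (NP-Phi) a modular polynomial datum `data : ModularPolynomialData p` whose `Φ` has the shape
  `NP58.PhiShape p data.Φ` (helper26).
Consumes `NP58.smooth_of_phiShape` (Newton polygon at `2`) and `SmoothPt61.galois_fixed_of_smooth`.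
Also: `isVal_aevalAeval` (values of bivariate polynomial expressions at a place) and
`evalEval_PhiQ_eq_zero` (`Φ_p(a, b) = 0` for the values at any place).
-/
import Mathlib
import Fermat.Agent.MAZ.NP58.Newton
import Fermat.Agent.MAZ.SmoothPt61.Main
import Fermat.Agent.MW.Bridge34.PlaceHom
import Fermat.Agent.X0.RootsK

set_option autoImplicit false
set_option linter.unusedSectionVars false

open Polynomial AlgebraicCurve ModularCurve
open Fermat.Agent.X0
open scoped Polynomial.Bivariate

noncomputable section

namespace Fermat.Agent.MAZ.E3Asm58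

open Fermat.Agent.MW.Bridge34 Fermat.Agent.MAZ.SmoothPt61 Fermat.Agent.MAZ.NP58

section Values

variable {K F : Type*} [Field K] [Field F] [Algebra K F]

/-- Values of polynomial expressions at a place. -/
theorem isVal_aeval (v : Place K F) {f : F} {a : K} (hf : IsVal v f a) (P : K[X]) :
    IsVal v (aeval f P) (P.eval a) := by
  induction P using Polynomial.induction_on' with
  | add P Q hP hQ =>
    rw [map_add, eval_add]
    exact hP.add hQ
  | monomial n c =>
    rw [aeval_monomial, eval_monomial]
    exact (isVal_algebraMap v c).mul (hf.pow n)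

/-- Values of bivariate polynomial expressions at a place. -/
theorem isVal_aevalAeval (v : Place K F) {f g : F} {a b : K} (hf : IsVal v f a)
    (hg : IsVal v g b) (P : K[X][Y]) : IsVal v (P.aevalAeval f g) (P.evalEval a b) := by
  induction P using Polynomial.induction_on' with
  | add P Q hP hQ =>
    rw [map_add, evalEval_add]
    exact hP.add hQ
  | monomial n c =>
    have h1 : (monomial n c : K[X][Y]).aevalAeval f g = aeval f c * g ^ n := by
      rw [← C_mul_X_pow_eq_monomial, map_mul, map_pow, aevalAeval_C, aevalAeval_Y]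
    have h2 : (monomial n c : K[X][Y]).evalEval a b = c.eval a * b ^ n := by
      rw [← C_mul_X_pow_eq_monomial, evalEval_mul, evalEval_pow, evalEval_C, evalEval_X]
    rw [h1, h2]
    exact (isVal_aeval v hf c).mul (hg.pow n)

/-- A relation `P(f, g) = 0` in the function field specialises to the values at any place. -/
theorem evalEval_eq_zero_of_isVal (v : Place K F) {f g : F} {a b : K} (hf : IsVal v f a)
    (hg : IsVal v g b) (P : K[X][Y]) (hP : P.aevalAeval f g = 0) : P.evalEval a b = 0 := by
  have h1 := isVal_aevalAeval v hf hg P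
  rw [hP] at h1
  have h2 : IsVal v (0 : F) (0 : K) := by
    have := isVal_algebraMap v (0 : K)
    rwa [map_zero] at this
  exact h1.unique h2

end Values

variable (p : ℕ) [NeZero p]

/-- `j_p - c` is nonzero for every constant `c`. -/
theorem jpF_sub_algebraMap_ne_zero (c : Kbar) : jpF p - algebraMap Kbar (FF p) c ≠ 0 := by
  intro h
  have h1 : ((jpF p : FF p) : LaurentSeries Kbar) =
      ((algebraMap Kbar (FF p) c : FF p) : LaurentSeries Kbar) := by
    rw [sub_eq_zero.1 h]
  have h2 : ((algebraMap Kbar (FF p) c : FF p) : LaurentSeries Kbar) =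
      algebraMap Kbar (LaurentSeries Kbar) c := rfl
  have hp0 : (-(p : ℤ)) ≠ 0 := by
    have : (p : ℤ) ≠ 0 := by exact_mod_cast NeZero.ne p
    exact neg_ne_zero.2 this
  have h3 := congrArg (fun x : LaurentSeries Kbar => x.coeff (-(p : ℤ))) h1
  simp only [coe_jpF, h2, coeffEmb_coeff, algebraMap_laurentSeries_eq_single,
    HahnSeries.coeff_single_of_ne hp0] at h3
  have h4 : (jqN p).coeff (-(p : ℤ)) = 1 := by
    have : (-(p : ℤ)) = (p : ℤ) * (-1) := by ring
    rw [this, jqN, qExpand_coeff_mul]
    exact coeff_jq_neg_one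
  rw [h4, map_one] at h3
  exact one_ne_zero h3

/-- `Φ_p(a, b) = 0` over `ℚ` for the (rational) values `a = j(w)`, `b = j_p(w)` at a place `w`. -/
theorem evalEval_PhiQ_eq_zero (data : ModularPolynomialData p) (a b : ℚ)
    (w : Place Kbar (FF p)) (hwa : IsVal w (jF p) (algebraMap ℚ Kbar a))
    (hwb : IsVal w (jpF p) (algebraMap ℚ Kbar b)) : (PhiQ p data).evalEval a b = 0 := by
  have h1 := evalEval_eq_zero_of_isVal w hwa hwb (PhiK p data) (aevalAeval_PhiK p data)
  rw [PhiK_eq_map, map_mapRingHom_evalEval] at h1
  exact (map_eq_zero (algebraMap ℚ Kbar)).mp h1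

/-- **(D2') assembled**: a place of `FF p` with rational values `a = j(w)`, `b = j_p(w)`, `1 < v₂(a)`
(multiplicative notation, i.e. `ord₂ a < 0`) is fixed by the arithmetic Galois action. -/
theorem galois_fixed_of_values (hAP : APAbs Kbar (FF p)) (hp : p.Prime) (hp2 : p ≠ 2)
    (data : ModularPolynomialData p) (hΦ : PhiShape p data.Φ) (a b : ℚ)
    (ha : 1 < Rat.padicValuation 2 a) (w : Place Kbar (FF p))
    (hwa : IsVal w (jF p) (algebraMap ℚ Kbar a)) (hwb : IsVal w (jpF p) (algebraMap ℚ Kbar b))
    (σ : Kbar ≃ₐ[ℚ] Kbar) :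
    arithmeticGalois (modularFunctionFieldFull p) σ • w = w := by
  have h0 : (toRat data.Φ).evalEval a b = 0 := evalEval_PhiQ_eq_zero p data a b w hwa hwb
  have hodd : Odd p := hp.odd_of_ne_two hp2
  have hsm := smooth_of_phiShape hp.two_le hodd hΦ ha h0
  have hsm' : (derivative ((PhiQ p data).map (evalRingHom a))).eval b ≠ 0 ∨
      (derivative ((PhiQ p data).eval (C b))).eval a ≠ 0 := by
    rcases hsm with h | h
    · left
      rw [← derivative_evalEval_eq]
      exact h
    · right
      rw [← derivative_swap_evalEval_eq]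
      exact h
  -- the two hypotheses of `galois_fixed_of_simple_root` in `ord` form
  have hja : jF p ≠ algebraMap Kbar (FF p) (algebraMap ℚ Kbar a) := fun h =>
    jF_sub_algebraMap_ne_zero p _ (sub_eq_zero.2 h)
  have hjb : jpF p ≠ algebraMap Kbar (FF p) (algebraMap ℚ Kbar b) := fun h =>
    jpF_sub_algebraMap_ne_zero p _ (sub_eq_zero.2 h)
  have hwa' := (isVal_iff_ord.1 hwa).resolve_left hja
  have hwb' := (isVal_iff_ord.1 hwb).resolve_left hjb
  exact galois_fixed_of_simple_root p hAP hp data a b hsm' w hwa' hwb' σ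

end Fermat.Agent.MAZ.E3Asm58
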