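/-
Programme MAZ (S15), row 727 E3-ASM (helper58), layer 1: **the moduli input (E3) in PLACE form**
(the hypotheses `x`, `hxfix`, `hx` of `Endgame88.s15_of_inputs`) from the bricks of report 1112.

* `E3Place p W Q` : the statement "there is a `G_ℚ`-fixed place `x` of `FF p` which reduces to the cusp
  `∞` resp. `0` at `A | ℓ` according to whether `Q` lies in the zero component at `A`";
* `e3Place_of_red` : (E3) from a place with rational `(j, j_p)`-values `(j_W, b)` + (AP-abs) + (NP-Phi)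
  + the reduction behaviour `hRED` (abstract);
* `valuation_dichotomy` : for ANY valuation subring `A` of `ℚbar` with `j(x) ∉ A`:
  `v_A(j_p(x)) = v_A(j(x))^p ∨ v_A(j_p(x))^p = v_A(j(x))` (Newton polygon of `Φ_p`, `NP58.val_cases`):
  this is the dichotomy `hdich` of `RedFibre34.red_eq_inf_iff_modL`, for free;
* `jW_notMem` : `j_W ∉ A` when `ℓ ∣ Δ`, `ℓ ∤ c₄`, `A | ℓ`;
* `e3Place_of_jp` : (E3) from (AP-abs) [helper75] + (NP-Phi) [helper26] + `CuspHyp` [helper34/helper56]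
  + the point place `x` with values `(j_W, b)` [BR: helper18/helper52/helper86] + the local criterion
  (LOC-j_p) `Q ∈ E⁰ at A ↔ v_A(b) = v_A(j_W)^p` [helper44/helper86], through helper34's landed (D3).
-/
import Mathlib
import Fermat.Agent.MAZ.E3Asm58.GalFixed
import Fermat.Agent.MAZ.RedFibre34.Val
import Fermat.Agent.MAZ.HeckeCusp89.Defs
import Fermat.Agent.S05.Inertia
import Fermat.Agent.RED.TOP.FbarFacts20
import Fermat.Prelude.Def_EllipticCurve_ZeroComponentAt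

set_option autoImplicit false
set_option linter.unusedSectionVars false
set_option linter.unusedVariables false
set_option synthInstance.maxHeartbeats 400000

open Polynomial AlgebraicCurve ModularCurve WeierstrassCurve WeierstrassCurve.Affine
open Fermat.Agent.X0
open scoped Polynomial.Bivariate

noncomputable section

namespace Fermat.Agent.MAZ.E3Asm58

open Fermat.Agent.MW.Bridge34 Fermat.Agent.MAZ.SmoothPt61 Fermat.Agent.MAZ.NP58
  Fermat.Agent.MAZ.RedFibre34 Fermat.Agent.MAZ.HeckeCusp89 Fermat.Agent.S05.Inertia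

local notation "Qb" => AlgebraicClosure ℚ

variable (p : ℕ) [NeZero p]

/-! ### Identification of the two presentations of `j`, `j_p` -/

theorem jF_eq_jL : (jF p : FF p) = jL Qb p := by
  apply Subtype.ext
  rw [Fermat.Agent.X0.coe_jF, jqK_eq_jqModC]
  rfl

theorem jpF_eq_jpL : (jpF p : FF p) = jpL Qb p := by
  apply Subtype.ext
  rw [Fermat.Agent.MAZ.SmoothPt61.coe_jpF]
  show coeffEmb Qb (qExpand ℚ p jq) = jqNModC Qb p
  rw [← jqModC_rat]
  show coeffMap (algebraMap ℚ Qb) (qExpand ℚ p (jqModC ℚ)) = _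
  rw [coeffMap_qExpand, coeffMap_jqModC, jqNModC]

/-! ### The Newton polygon dichotomy at every valuation subring of `ℚbar` -/

theorem coeff_coeff_PhiK (data : ModularPolynomialData p) (i k : ℕ) :
    ((PhiK p data).coeff k).coeff i = (((data.Φ.coeff k).coeff i : ℤ) : Kbar) := by
  rw [PhiK, Polynomial.coeff_map, Polynomial.coe_mapRingHom, Polynomial.coeff_map]
  rfl

theorem npShape_PhiK (A : ValuationSubring Kbar) (data : ModularPolynomialData p)
    (hΦ : PhiShape p data.Φ) : NPShape A.valuation p (PhiK p data) where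
  int i k := by
    rw [coeff_coeff_PhiK]
    exact valuation_intCast_le_one _
  deg i k hik := by rw [coeff_coeff_PhiK, hΦ.deg i k hik, Int.cast_zero]
  topY i hi := by
    rw [coeff_coeff_PhiK, hΦ.topY, Polynomial.coeff_one, if_neg hi.ne', Int.cast_zero]
  topY0 := by
    rw [coeff_coeff_PhiK, hΦ.topY, Polynomial.coeff_one_zero, Int.cast_one, map_one]
  topX k hk := by rw [coeff_coeff_PhiK, hΦ.topX k, if_neg hk.ne', Int.cast_zero]
  topX0 := by rw [coeff_coeff_PhiK, hΦ.topX 0, if_pos rfl, Int.cast_one, map_one]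
  mid := by
    rw [coeff_coeff_PhiK, hΦ.mid, Int.cast_neg, Int.cast_one, Valuation.map_neg, map_one]

/-- **The (D4) dichotomy for free**: at every valuation subring `A` of `ℚbar` with `j(x) ∉ A`. -/
theorem valuation_dichotomy (hp : 2 ≤ p) (A : ValuationSubring Kbar)
    (data : ModularPolynomialData p) (hΦ : PhiShape p data.Φ) (x : Place Kbar (FF p))
    {a b : Kbar} (hxa : IsVal x (jF p) a) (hxb : IsVal x (jpF p) b) (ha : a ∉ A) :
    A.valuation b = A.valuation a ^ p ∨ A.valuation b ^ p = A.valuation a := by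
  have h0 := evalEval_eq_zero_of_isVal x hxa hxb (PhiK p data) (aevalAeval_PhiK p data)
  exact (val_cases A.valuation hp (npShape_PhiK p A data hΦ) (one_lt_valuation_of_notMem ha) h0).2

/-! ### The `j`-invariant of a curve with multiplicative reduction -/

/-- The `j`-invariant of `W`, as a rational number. -/
def jW (W : WeierstrassCurve ℤ) : ℚ := (W.c₄ : ℚ) ^ 3 / (W.Δ : ℚ)

theorem algebraMap_jW (W : WeierstrassCurve ℤ) :
    algebraMap ℚ Kbar (jW W) = ((W.c₄ : ℤ) : Kbar) ^ 3 / ((W.Δ : ℤ) : Kbar) := by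
  rw [jW, map_div₀, map_pow, eq_ratCast, eq_ratCast, Rat.cast_intCast, Rat.cast_intCast]

theorem jW_notMem (W : WeierstrassCurve ℤ) (hΔ : W.Δ ≠ 0) {ℓ : ℕ} (hℓ : ℓ.Prime)
    (A : ValuationSubring Kbar) (hA : A.LiesOverPrime ℓ) (hℓΔ : (ℓ : ℤ) ∣ W.Δ)
    (hℓc : ¬ (ℓ : ℤ) ∣ W.c₄) : algebraMap ℚ Kbar (jW W) ∉ A := by
  intro hmem
  have h1 : A.valuation (algebraMap ℚ Kbar (jW W)) ≤ 1 := (A.valuation_le_one_iff _).2 hmem
  rw [algebraMap_jW, map_div₀, map_pow, valuation_intCast_eq_one hℓ hA hℓc, one_pow, one_div] at h1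
  have h3 : A.valuation ((W.Δ : ℤ) : Kbar) < 1 := (valuation_intCast_lt_one_iff hℓ hA _).2 hℓΔ
  have h4 : A.valuation ((W.Δ : ℤ) : Kbar) ≠ 0 := by
    rw [Ne, map_eq_zero]
    exact_mod_cast hΔ
  exact absurd h1 (not_le.2 ((one_lt_inv₀ (zero_lt_iff.2 h4)).2 h3))

theorem one_lt_padicValuation_jW (W : WeierstrassCurve ℤ) (hΔ : W.Δ ≠ 0) (h2Δ : (2 : ℤ) ∣ W.Δ)
    (h2c₄ : ¬ (2 : ℤ) ∣ W.c₄) : 1 < Rat.padicValuation 2 (jW W) := by
  have h := one_lt_padicValuation_div (c := W.c₄ ^ 3) (d := W.Δ) hΔ h2Δ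
    (fun h => h2c₄ (Int.prime_two.dvd_of_dvd_pow h))
  rwa [Int.cast_pow] at h

/-! ### (E3) in place form -/

/-- **(E3), place form**: exactly the hypotheses `x`, `hxfix`, `hx` of `Endgame88.s15_of_inputs`. -/
def E3Place (W : WeierstrassCurve ℤ)
    (Q : ((W.map (Int.castRingHom ℚ))⁄(AlgebraicClosure ℚ)).Point) : Prop :=
  ∃ x : Place Qb (modularFunctionFieldBar p),
    (∀ σ : Qb ≃ₐ[ℚ] Qb, arithmeticGalois (modularFunctionFieldFull p) σ • x = x) ∧
    ∀ {ℓ' : ℕ}, ℓ'.Prime → ℓ' ≠ p → (ℓ' : ℤ) ∣ W.Δ → ¬ (ℓ' : ℤ) ∣ W.c₄ →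
      ∀ A' : ValuationSubring Qb, A'.LiesOverPrime ℓ' →
        ∀ r : Place Qb (modularFunctionFieldBar p) →
            Place (IsLocalRing.ResidueField A')
              (modularFunctionFieldFullC (IsLocalRing.ResidueField A') p),
          IsPlaceReductionModL A' p r →
            (W.InZeroComponentAt A' Q → r x = r (cuspInf p)) ∧
            (¬ W.InZeroComponentAt A' Q → r x = r (cuspZero p))

/-- (E3) from a place with rational values `(j_W, b)` and an abstract reduction statement. -/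
theorem e3Place_of_red (hp : p.Prime) (hp2 : p ≠ 2) (W : WeierstrassCurve ℤ) (hΔ : W.Δ ≠ 0)
    (Q : ((W.map (Int.castRingHom ℚ))⁄(AlgebraicClosure ℚ)).Point)
    (h2Δ : (2 : ℤ) ∣ W.Δ) (h2c₄ : ¬ (2 : ℤ) ∣ W.c₄)
    (hAP : APAbs Kbar (FF p)) (data : ModularPolynomialData p) (hΦ : PhiShape p data.Φ)
    (b : ℚ) (x : Place Kbar (FF p)) (hxa : IsVal x (jF p) (algebraMap ℚ Kbar (jW W)))
    (hxb : IsVal x (jpF p) (algebraMap ℚ Kbar b))
    (hRED : ∀ {ℓ' : ℕ}, ℓ'.Prime → ℓ' ≠ p → (ℓ' : ℤ) ∣ W.Δ → ¬ (ℓ' : ℤ) ∣ W.c₄ →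
      ∀ A' : ValuationSubring Qb, A'.LiesOverPrime ℓ' →
        ∀ r : Place Qb (modularFunctionFieldBar p) →
            Place (IsLocalRing.ResidueField A')
              (modularFunctionFieldFullC (IsLocalRing.ResidueField A') p),
          IsPlaceReductionModL A' p r →
            (W.InZeroComponentAt A' Q → r x = r (cuspInf p)) ∧
            (¬ W.InZeroComponentAt A' Q → r x = r (cuspZero p))) :
    E3Place p W Q :=
  ⟨x, fun σ => galois_fixed_of_values p hAP hp hp2 data hΦ (jW W) b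
    (one_lt_padicValuation_jW W hΔ h2Δ h2c₄) x hxa hxb σ, hRED⟩

/-- **(E3) through helper34's (D3)** (`j_p`-form of the local criterion). -/
theorem e3Place_of_jp (hp : p.Prime) (hp2 : p ≠ 2) (W : WeierstrassCurve ℤ) (hΔ : W.Δ ≠ 0)
    (Q : ((W.map (Int.castRingHom ℚ))⁄(AlgebraicClosure ℚ)).Point)
    (h2Δ : (2 : ℤ) ∣ W.Δ) (h2c₄ : ¬ (2 : ℤ) ∣ W.c₄)
    (hAP : APAbs Kbar (FF p)) (data : ModularPolynomialData p) (hΦ : PhiShape p data.Φ)
    (hCusp : ∀ {ℓ' : ℕ}, ℓ'.Prime → ℓ' ≠ p → ∀ A' : ValuationSubring Qb, A'.LiesOverPrime ℓ' →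
      ∀ r : Place Qb (modularFunctionFieldBar p) →
          Place (IsLocalRing.ResidueField A')
            (modularFunctionFieldFullC (IsLocalRing.ResidueField A') p),
        IsPlaceReductionModL A' p r → CuspHyp r (cuspInf p) (cuspZero p))
    (b : ℚ) (x : Place Kbar (FF p)) (hxa : IsVal x (jF p) (algebraMap ℚ Kbar (jW W)))
    (hxb : IsVal x (jpF p) (algebraMap ℚ Kbar b))
    (hLOC : ∀ {ℓ' : ℕ}, ℓ'.Prime → ℓ' ≠ p → (ℓ' : ℤ) ∣ W.Δ → ¬ (ℓ' : ℤ) ∣ W.c₄ →
      ∀ A' : ValuationSubring Qb, A'.LiesOverPrime ℓ' →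
        (W.InZeroComponentAt A' Q ↔
          A'.valuation (algebraMap ℚ Kbar b) = A'.valuation (algebraMap ℚ Kbar (jW W)) ^ p)) :
    E3Place p W Q := by
  haveI : HasPrincipalDivisors Qb (modularFunctionFieldBar p) :=
    Fermat.Agent.RED.TOP.FbarFacts20.hasPrincipalDivisors_bar p
  refine e3Place_of_red p hp hp2 W hΔ Q h2Δ h2c₄ hAP data hΦ b x hxa hxb ?_
  intro ℓ' hℓ' hℓ'p hℓ'Δ hℓ'c A' hA' r hr
  have ha' := jW_notMem W hΔ hℓ' A' hA' hℓ'Δ hℓ'c
  have H := hCusp hℓ' hℓ'p A' hA' r hr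
  have hxa' : IsVal x (jL Qb p) (algebraMap ℚ Kbar (jW W)) := by
    rw [← jF_eq_jL]
    exact hxa
  have hxb' : IsVal x (jpL Qb p) (algebraMap ℚ Kbar b) := by
    rw [← jpF_eq_jpL]
    exact hxb
  have hloc := hLOC hℓ' hℓ'p hℓ'Δ hℓ'c A' hA'
  constructor
  · intro hin
    exact red_eq_inf_modL A' hp.two_le hr H x ha' hxa' hxb' (hloc.1 hin)
  · intro hnin
    rcases valuation_dichotomy p hp.two_le A' data hΦ x hxa hxb ha' with h | h
    · exact absurd (hloc.2 h) hnin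
    · exact red_eq_zero_modL A' hp.two_le hr H x ha' hxa' hxb' h

/-- **(E3) through the modular unit** (`u`-form of the local criterion, report 1112): `u : FF p` is any
function (in the application `u = Δ(q)/Δ(q^p)`, `RED/BASE/DeltaMem19.uqInv`) for which the reduction
criterion (D3') `r x = r ∞ ↔ v_A(u(x)) = v_A(j(x))^(p-1)` holds at the places with `j(x) ∉ A`; `U` is the
rational value of `u` at `x` and (LOC-u) is `Q ∈ E⁰ at A ↔ v_A(U) = v_A(j_W)^(p-1)`.  The fibre statement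
`r x ∈ {r ∞, r 0}` is helper34's `red_fibre_modL`. -/
theorem e3Place_of_u (hp : p.Prime) (hp2 : p ≠ 2) (W : WeierstrassCurve ℤ) (hΔ : W.Δ ≠ 0)
    (Q : ((W.map (Int.castRingHom ℚ))⁄(AlgebraicClosure ℚ)).Point)
    (h2Δ : (2 : ℤ) ∣ W.Δ) (h2c₄ : ¬ (2 : ℤ) ∣ W.c₄)
    (hAP : APAbs Kbar (FF p)) (data : ModularPolynomialData p) (hΦ : PhiShape p data.Φ)
    (hCusp : ∀ {ℓ' : ℕ}, ℓ'.Prime → ℓ' ≠ p → ∀ A' : ValuationSubring Qb, A'.LiesOverPrime ℓ' →
      ∀ r : Place Qb (modularFunctionFieldBar p) →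
          Place (IsLocalRing.ResidueField A')
            (modularFunctionFieldFullC (IsLocalRing.ResidueField A') p),
        IsPlaceReductionModL A' p r → CuspHyp r (cuspInf p) (cuspZero p))
    (u : FF p)
    (hD3u : ∀ {ℓ' : ℕ}, ℓ'.Prime → ℓ' ≠ p → ∀ A' : ValuationSubring Qb, A'.LiesOverPrime ℓ' →
      ∀ r : Place Qb (modularFunctionFieldBar p) →
          Place (IsLocalRing.ResidueField A')
            (modularFunctionFieldFullC (IsLocalRing.ResidueField A') p),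
        IsPlaceReductionModL A' p r → ∀ (y : Place Kbar (FF p)) {a c : Kbar}, a ∉ A' →
          IsVal y (jF p) a → IsVal y u c →
            (r y = r (cuspInf p) ↔ A'.valuation c = A'.valuation a ^ (p - 1)))
    (b U : ℚ) (x : Place Kbar (FF p)) (hxa : IsVal x (jF p) (algebraMap ℚ Kbar (jW W)))
    (hxb : IsVal x (jpF p) (algebraMap ℚ Kbar b)) (hxu : IsVal x u (algebraMap ℚ Kbar U))
    (hLOC : ∀ {ℓ' : ℕ}, ℓ'.Prime → ℓ' ≠ p → (ℓ' : ℤ) ∣ W.Δ → ¬ (ℓ' : ℤ) ∣ W.c₄ →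
      ∀ A' : ValuationSubring Qb, A'.LiesOverPrime ℓ' →
        (W.InZeroComponentAt A' Q ↔
          A'.valuation (algebraMap ℚ Kbar U) =
            A'.valuation (algebraMap ℚ Kbar (jW W)) ^ (p - 1))) :
    E3Place p W Q := by
  haveI : HasPrincipalDivisors Qb (modularFunctionFieldBar p) :=
    Fermat.Agent.RED.TOP.FbarFacts20.hasPrincipalDivisors_bar p
  refine e3Place_of_red p hp hp2 W hΔ Q h2Δ h2c₄ hAP data hΦ b x hxa hxb ?_
  intro ℓ' hℓ' hℓ'p hℓ'Δ hℓ'c A' hA' r hr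
  have ha' := jW_notMem W hΔ hℓ' A' hA' hℓ'Δ hℓ'c
  have H := hCusp hℓ' hℓ'p A' hA' r hr
  have hxa' : IsVal x (jL Qb p) (algebraMap ℚ Kbar (jW W)) := by
    rw [← jF_eq_jL]
    exact hxa
  have hloc := hLOC hℓ' hℓ'p hℓ'Δ hℓ'c A' hA'
  have hd3 := hD3u hℓ' hℓ'p A' hA' r hr x ha' hxa hxu
  constructor
  · intro hin
    exact hd3.2 (hloc.1 hin)
  · intro hnin
    rcases red_fibre_modL A' hr H x ha' hxa' with h | h
    · exact absurd (hloc.2 (hd3.1 h)) hnin
    · exact h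

end Fermat.Agent.MAZ.E3Asm58
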