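/-
Programme MAZ (S15), row 727 E3-ASM (helper58), **HALF B** of the architect's split (helper86, report 1165):

from
* HALF A's output (helper86, `MAZ/EF86/E3Place.lean`): a `G_ℚ`-fixed place `x` of `FF p` with
  `j(x) = j_W` and `(Δ(q)/Δ(q^p))(x) = ModInv.Uinv E Q p`,
* (6) LOC (helper44, landed): `Loc44.inZeroComponentAt_iff_val_Uinv`,
* (7) D3' (helper24 + cusp hypotheses; here the ONE hypothesis `D3Hyp p`, verbatim the consumer shape of
  the architect),
to the place form `E3Place p W Q` of (E3) (= the arguments `x`, `hxfix`, `hx` of `Endgame88.s15_of_inputs`).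
-/
import Mathlib
import Fermat.Agent.MAZ.E3Asm58.Top
import Fermat.Agent.MAZ.Loc44.Final
import Fermat.Agent.RED.BASE.DeltaMem19

set_option autoImplicit false
set_option linter.unusedSectionVars false
set_option linter.unusedVariables false
set_option synthInstance.maxHeartbeats 400000

open AlgebraicCurve ModularCurve WeierstrassCurve WeierstrassCurve.Affine
open Fermat.Agent.X0

noncomputable section

namespace Fermat.Agent.MAZ.E3Asm58

open Fermat.Agent.MW.Bridge34 Fermat.Agent.MAZ.SmoothPt61 Fermat.Agent.MAZ.RedFibre34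
  Fermat.Agent.MAZ.HeckeCusp89 Fermat.Agent.RED.BASE.DeltaMem19

local notation "Qb" => AlgebraicClosure ℚ

variable (p : ℕ) [NeZero p]

/-- The modular unit `Δ(q)/Δ(q^p)` as an element of `FF p`. -/
def uInvF : FF p := ⟨uqInv p Kbar, uqInv_mem p (dvd_refl p)⟩

/-- **(7) D3', consumer shape** (architect's message 11363, verbatim): at a place `x` with `j(x) = a ∉ A'`
and `u(x) = c`: `r x` is one of the two cusps, and it is the cusp `∞` iff `v(c) = v(a)^(p-1)`. -/
def D3Hyp : Prop :=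
  ∀ {ℓ' : ℕ}, ℓ'.Prime → ℓ' ≠ p → ∀ A' : ValuationSubring Qb, A'.LiesOverPrime ℓ' →
    ∀ r : Place Qb (modularFunctionFieldBar p) →
        Place (IsLocalRing.ResidueField A')
          (modularFunctionFieldFullC (IsLocalRing.ResidueField A') p),
      IsPlaceReductionModL A' p r →
        ∀ (x : Place Qb (FF p)) (a c : Qb), a ∉ A' →
          0 < x.ord (jF p - algebraMap Qb (FF p) a) → IsVal x (uInvF p) c →
            (r x = r (cuspInf p) ∨ r x = r (cuspZero p)) ∧
              (r x = r (cuspInf p) ↔ A'.valuation c = A'.valuation a ^ (p - 1))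

/-- The two ways of writing `j_W`. -/
theorem algebraMap_jW_eq (W : WeierstrassCurve ℤ) :
    algebraMap ℚ Qb ((W.map (Int.castRingHom ℚ)).c₄ ^ 3 / (W.map (Int.castRingHom ℚ)).Δ) =
      algebraMap ℚ Qb (jW W) := by
  rw [Fermat.Agent.MAZ.Loc44.algebraMap_j, algebraMap_jW]

/-- **HALF B**: (E3) in place form from HALF A's place, (LOC) and (D3'). -/
theorem e3Place_of_halfA (hp : p.Prime) (hp2 : p ≠ 2) (W : WeierstrassCurve ℤ) (hΔ : W.Δ ≠ 0)
    (Q : ((W.map (Int.castRingHom ℚ))⁄(AlgebraicClosure ℚ)).Point) (hQord : addOrderOf Q = p)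
    (hD3 : D3Hyp p)
    (hA : ∃ x : Place Qb (FF p),
      (∀ σ : Qb ≃ₐ[ℚ] Qb, arithmeticGalois (modularFunctionFieldFull p) σ • x = x) ∧
      IsVal x (jL Qb p) (algebraMap ℚ Qb
        ((W.map (Int.castRingHom ℚ)).c₄ ^ 3 / (W.map (Int.castRingHom ℚ)).Δ)) ∧
      IsVal x (uInvF p)
        (ModInv.Uinv ((W.map (Int.castRingHom ℚ)).baseChange Qb) Q p)) :
    E3Place p W Q := by
  obtain ⟨x, hfix, hxa, hxu⟩ := hA
  refine ⟨x, hfix, ?_⟩
  intro ℓ' hℓ' hℓ'p hℓ'Δ hℓ'c A' hA' r hr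
  have ha' : algebraMap ℚ Qb
      ((W.map (Int.castRingHom ℚ)).c₄ ^ 3 / (W.map (Int.castRingHom ℚ)).Δ) ∉ A' := by
    rw [algebraMap_jW_eq]
    exact jW_notMem W hΔ hℓ' A' hA' hℓ'Δ hℓ'c
  have hxa' : IsVal x (jF p) (algebraMap ℚ Qb
      ((W.map (Int.castRingHom ℚ)).c₄ ^ 3 / (W.map (Int.castRingHom ℚ)).Δ)) := by
    rw [jF_eq_jL]
    exact hxa
  have hord := (isVal_iff_ord.1 hxa').resolve_left
    (fun h => jF_sub_algebraMap_ne_zero p _ (sub_eq_zero.2 h))
  obtain ⟨hfib, hiff⟩ := hD3 hℓ' hℓ'p A' hA' r hr x _ _ ha' hord hxu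
  have hloc := Fermat.Agent.MAZ.Loc44.inZeroComponentAt_iff_val_Uinv W hp hp2 hℓ' hℓ'p hA' hQord hΔ
    hℓ'c
  constructor
  · intro hin
    exact hiff.2 (hloc.1 hin)
  · intro hnin
    rcases hfib with h | h
    · exact absurd (hloc.2 (hiff.1 h)) hnin
    · exact h

end Fermat.Agent.MAZ.E3Asm58
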